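/-
S18 / wave 4 (helper52): leaf L0 of the bridge sub-skeleton (helper28, `H28/SetupSkel.lean`):
the residue field of a valuation subring of an algebraically closed field is algebraically
closed, and it has characteristic `ℓ` when the valuation subring lies over the prime `ℓ`.
-/
import Mathlib
import Fermat.Prelude.Def_FLTPrelim_Ramification

set_option autoImplicit false

open Polynomial

noncomputable section

namespace Fermat.Agent.S18.H52

/-- The residue field of a valuation subring of an algebraically closed field is algebraically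
closed. -/
theorem isAlgClosed_residueField {L : Type*} [Field L] [IsAlgClosed L] (A : ValuationSubring L) :
    IsAlgClosed (IsLocalRing.ResidueField A) := by
  refine IsAlgClosed.of_exists_root _ fun p hp hirr => ?_
  have hsurj : Function.Surjective (IsLocalRing.residue A) := IsLocalRing.residue_surjective
  have hlift : p ∈ Polynomial.lifts (IsLocalRing.residue A) := by
    rw [Polynomial.mem_lifts]
    exact Polynomial.map_surjective _ hsurj p
  obtain ⟨P, hPmap, hPdeg, hPmonic⟩ := Polynomial.lifts_and_natDegree_eq_and_monic hlift hp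
  have hdeg : (P.map (algebraMap A L)).degree ≠ 0 := by
    rw [Polynomial.degree_map_eq_of_injective (FaithfulSMul.algebraMap_injective A L)]
    have h1 : p.natDegree ≠ 0 := fun h0 =>
      hirr.not_isUnit (by
        have := Polynomial.eq_one_of_monic_natDegree_zero hp h0
        rw [this]; exact isUnit_one)
    rw [Polynomial.degree_eq_natDegree hPmonic.ne_zero]
    intro h
    apply h1
    rw [← hPdeg]
    exact_mod_cast h
  obtain ⟨z, hz⟩ := IsAlgClosed.exists_root (P.map (algebraMap A L)) hdeg
  have hint : IsIntegral A z := ⟨P, hPmonic, by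
    rw [← Polynomial.eval_map]; exact hz⟩
  obtain ⟨a, rfl⟩ := (IsIntegrallyClosed.isIntegral_iff (R := A) (K := L)).mp hint
  have ha : P.eval a = 0 := by
    have h1 : algebraMap A L (P.eval a) = 0 := by
      rw [← Polynomial.eval₂_hom, ← Polynomial.eval_map]; exact hz
    exact (FaithfulSMul.algebraMap_injective A L) (by rw [h1, map_zero])
  refine ⟨IsLocalRing.residue A a, ?_⟩
  rw [← hPmap, Polynomial.eval_map, Polynomial.eval₂_hom, ha, map_zero]

/-- If the valuation subring `A` lies over the prime `ℓ`, its residue field has
characteristic `ℓ`. -/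
theorem charP_residueField {L : Type*} [Field L] (A : ValuationSubring L) {ℓ : ℕ}
    [Fact ℓ.Prime] (hA : A.LiesOverPrime ℓ) : CharP (IsLocalRing.ResidueField A) ℓ := by
  rw [CharP.charP_iff_prime_eq_zero (Fact.out : ℓ.Prime)]
  have h1 : ((ℓ : A) : L) ∈ A.nonunits := by
    have : ((ℓ : A) : L) = (ℓ : L) := by simp
    rw [this]; exact hA
  have h2 : (ℓ : A) ∈ IsLocalRing.maximalIdeal A := by
    rw [IsLocalRing.mem_maximalIdeal, mem_nonunits_iff]
    intro hu
    exact (ValuationSubring.mem_nonunits_iff_exists_mem_maximalIdeal.mp h1).elim fun ha hm => by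
      rw [IsLocalRing.mem_maximalIdeal, mem_nonunits_iff] at hm
      exact hm hu
  have h3 : IsLocalRing.residue A (ℓ : A) = 0 := by
    rwa [IsLocalRing.residue_eq_zero_iff]
  rw [← h3, map_natCast]

/-- **L0** (`H28.kA_isAlgClosed`). -/
theorem kA_isAlgClosed (A : ValuationSubring (AlgebraicClosure ℚ)) :
    IsAlgClosed (IsLocalRing.ResidueField A) :=
  isAlgClosed_residueField A

/-- **L0** (`H28.kA_charP`). -/
theorem kA_charP (A : ValuationSubring (AlgebraicClosure ℚ)) {ℓ : ℕ} [Fact ℓ.Prime]
    (hA : A.LiesOverPrime ℓ) : CharP (IsLocalRing.ResidueField A) ℓ :=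
  charP_residueField A hA

end Fermat.Agent.S18.H52
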