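/-
S18 / wave 4 (helper52): auxiliary lemmas for the core-2 leaf K2-CH-C `chart_ram`
(helper19's `Core2.lean`, tasks 225); the leaf itself is in `ChartRam.lean`.

Horizontal primes `𝔮 ≠ ⊥` (`ϖ ∉ 𝔮`) of the chart `C` = integral closure of `A₀[x]` in `F₀` whose
centre is not one of the branch points are unramified over `A₀[x]`: `𝔮 C_𝔮` is generated by a
polynomial in `x`.

Proof.  `C[1/ϖ]` is the integral closure `S` of `K₀[x]` (`K₀ = Frac A₀`), a Dedekind domain with
fraction field `F₀`; `𝔮` extends to a height one prime of `S`, whose valuation ring `V = C_𝔮` is a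
discrete valuation ring of `F₀/K₀`; `DSetup.branch` applies to `V`.
-/
import Mathlib
import Fermat.Prelude.Def_AlgebraicCurve_DivisorClassGroup
import Fermat.Agent.S24.H79.Fib
import Fermat.Agent.S18.H19.Core2Defs

set_option autoImplicit false

open Polynomial IsDedekindDomain IntermediateField AlgebraicCurve
open scoped IntermediateField.algebraAdjoinAdjoin

noncomputable section

namespace Fermat.Agent.S18.H52

open Fermat.Agent.S18.H19

/-! ### The Dedekind step -/

section Dedekind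

variable {K F : Type*} [Field K] [CharZero K] [Field F] [Algebra K F]

/-- For a nonzero prime `P` of the integral closure `S` of `K[x]` in `F`, the local ring `S_P` is
a discrete valuation ring of `F`. -/
theorem exists_dvr_of_prime (x : F) (hx : Transcendental K x) [FiniteDimensional K⟮x⟯ F]
    (P : Ideal (integralClosure (Algebra.adjoin K ({x} : Set F)) F)) (hP : P.IsPrime)
    (hP0 : P ≠ ⊥) :
    ∃ V : ValuationSubring F, IsDiscreteValuationRing V ∧
      (∀ s : integralClosure (Algebra.adjoin K ({x} : Set F)) F, (s : F) ∈ V) ∧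
      (∀ s : integralClosure (Algebra.adjoin K ({x} : Set F)) F, s ∉ P → (s : F)⁻¹ ∈ V) ∧
      (∀ s : integralClosure (Algebra.adjoin K ({x} : Set F)) F, s ∈ P → s ≠ 0 →
        (s : F)⁻¹ ∉ V) ∧
      (∀ t ∈ V, ∃ n d : integralClosure (Algebra.adjoin K ({x} : Set F)) F,
        d ∉ P ∧ t * (d : F) = (n : F)) := by
  have hPID := Fermat.Agent.S24.H79.isPrincipalIdealRing_R0 x hx
  have hSD : IsDedekindDomain (integralClosure (Algebra.adjoin K ({x} : Set F)) F) :=
    integralClosure.isDedekindDomain (Algebra.adjoin K ({x} : Set F)) K⟮x⟯ F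
  have hSF : IsFractionRing (integralClosure (Algebra.adjoin K ({x} : Set F)) F) F :=
    integralClosure.isFractionRing_of_finite_extension K⟮x⟯ F
  let w : HeightOneSpectrum (integralClosure (Algebra.adjoin K ({x} : Set F)) F) := ⟨P, hP, hP0⟩
  let pl : Place K F := Place.ofHeightOneSpectrum (K := K) (F := F) w
  have hV : pl.toValuationSubring = (w.valuation F).valuationSubring := rfl
  refine ⟨pl.toValuationSubring, inferInstance, ?_, ?_, ?_, ?_⟩
  · intro s
    rw [hV, Valuation.mem_valuationSubring_iff]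
    exact w.valuation_le_one s
  · intro s hs
    rw [hV, Valuation.mem_valuationSubring_iff, map_inv₀]
    have h1 : ¬ w.valuation F (algebraMap _ F s) < 1 := fun h =>
      hs ((w.valuation_lt_one_iff_mem (K := F) s).mp h)
    have h2 := w.valuation_le_one (K := F) s
    have h3 : w.valuation F (algebraMap _ F s) = 1 := le_antisymm h2 (not_lt.mp h1)
    show (w.valuation F (algebraMap _ F s))⁻¹ ≤ 1
    rw [h3, inv_one]
  · intro s hs hs0
    rw [hV, Valuation.mem_valuationSubring_iff, map_inv₀]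
    have h1 : w.valuation F (algebraMap _ F s) < 1 := (w.valuation_lt_one_iff_mem (K := F) s).mpr hs
    have hs' : algebraMap (integralClosure (Algebra.adjoin K ({x} : Set F)) F) F s ≠ 0 := by
      simpa using (IsFractionRing.injective _ F).ne hs0
    have h0 : w.valuation F (algebraMap _ F s) ≠ 0 := (Valuation.ne_zero_iff _).mpr hs'
    show ¬ (w.valuation F (algebraMap _ F s))⁻¹ ≤ 1
    rw [not_le]
    exact (one_lt_inv₀ (zero_lt_iff.mpr h0)).mpr h1
  · intro t ht
    rw [hV, Valuation.mem_valuationSubring_iff] at ht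
    obtain ⟨n, d, hnd⟩ := w.exists_primeCompl_mul_eq_of_integer t ht
    exact ⟨n, d, d.2, hnd⟩

end Dedekind

/-! ### `A₀[x] ⊆ K₀[x]` and denominators -/

section Denominators

variable {A₀ : Type*} [CommRing A₀] [IsDomain A₀] [IsDiscreteValuationRing A₀]
  (K : Type*) [Field K] [Algebra A₀ K] [IsFractionRing A₀ K]
  {F₀ : Type*} [Field F₀] [Algebra A₀ F₀] [Algebra K F₀] [IsScalarTower A₀ K F₀]

omit [IsDomain A₀] [IsDiscreteValuationRing A₀] [IsFractionRing A₀ K] in
theorem mem_adjoin_of_mem_adjoin (x : F₀) {r : F₀} (hr : r ∈ Algebra.adjoin A₀ ({x} : Set F₀)) :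
    r ∈ Algebra.adjoin K ({x} : Set F₀) := by
  induction hr using Algebra.adjoin_induction with
  | mem y hy => exact Algebra.subset_adjoin hy
  | algebraMap a =>
    rw [IsScalarTower.algebraMap_apply A₀ K F₀]
    exact Subalgebra.algebraMap_mem _ _
  | add _ _ _ _ h1 h2 => exact add_mem h1 h2
  | mul _ _ _ _ h1 h2 => exact mul_mem h1 h2

/-- The inclusion `A₀[x] → K₀[x]`. -/
def adjoinIncl (x : F₀) :
    Algebra.adjoin A₀ ({x} : Set F₀) →+* Algebra.adjoin K ({x} : Set F₀) where
  toFun r := ⟨r, mem_adjoin_of_mem_adjoin K x r.2⟩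
  map_one' := Subtype.ext (by simp only [OneMemClass.coe_one])
  map_mul' _ _ := Subtype.ext (by simp only [MulMemClass.coe_mul])
  map_zero' := Subtype.ext (by simp only [ZeroMemClass.coe_zero])
  map_add' _ _ := Subtype.ext (by simp only [AddMemClass.coe_add])

omit [IsDomain A₀] [IsDiscreteValuationRing A₀] [IsFractionRing A₀ K] in
theorem isIntegral_adjoin_of_isIntegral {x y : F₀}
    (h : IsIntegral (Algebra.adjoin A₀ ({x} : Set F₀)) y) :
    IsIntegral (Algebra.adjoin K ({x} : Set F₀)) y := by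
  obtain ⟨p, hp, hpy⟩ := h
  refine ⟨p.map (adjoinIncl K x), hp.map _, ?_⟩
  rw [Polynomial.eval₂_map]
  exact hpy

variable {K}

/-- Elements of `K₀[x]` have a power of `ϖ` as a denominator. -/
theorem exists_pow_mul_mem_adjoin (ϖ : A₀) (hϖ : Irreducible ϖ) (x : F₀)
    (r : F₀) (hr : r ∈ Algebra.adjoin K ({x} : Set F₀)) :
    ∃ k : ℕ, ∀ k' : ℕ, k ≤ k' → algebraMap A₀ F₀ (ϖ ^ k') * r ∈ Algebra.adjoin A₀ ({x} : Set F₀) := by
  rw [Algebra.adjoin_singleton_eq_range_aeval] at hr
  obtain ⟨q, hq⟩ := hr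
  have hq' : aeval x q = r := hq
  subst hq'
  obtain ⟨b, hbM, hb⟩ := IsLocalization.integerNormalization_spec (nonZeroDivisors A₀) q
  have hb0 : (b : A₀) ≠ 0 := nonZeroDivisors.ne_zero hbM
  obtain ⟨k, u, hku⟩ := IsDiscreteValuationRing.eq_unit_mul_pow_irreducible hb0 hϖ
  -- `b • q(x) ∈ A₀[x]`
  have h1 : algebraMap A₀ F₀ (b : A₀) * aeval x q ∈ Algebra.adjoin A₀ ({x} : Set F₀) := by
    have h2 : algebraMap A₀ F₀ (b : A₀) * aeval x q
        = aeval x (IsLocalization.integerNormalization (nonZeroDivisors A₀) q) := by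
      have h4 := Polynomial.aeval_map_algebraMap (A := K) x
        (IsLocalization.integerNormalization (nonZeroDivisors A₀) q)
      rw [← h4, hb, ← algebraMap_smul K b q, map_smul, Algebra.smul_def,
        ← IsScalarTower.algebraMap_apply]
    rw [h2, Algebra.adjoin_singleton_eq_range_aeval]
    exact ⟨_, rfl⟩
  refine ⟨k, fun k' hk' => ?_⟩
  have h3 : algebraMap A₀ F₀ (ϖ ^ k') * aeval x q
      = algebraMap A₀ F₀ (((u⁻¹ : A₀ˣ) : A₀) * ϖ ^ (k' - k))
        * (algebraMap A₀ F₀ (b : A₀) * aeval x q) := by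
    rw [← mul_assoc, ← map_mul]
    congr 2
    rw [hku]
    have : ϖ ^ k' = ϖ ^ (k' - k) * ϖ ^ k := by rw [← pow_add]; congr 1; omega
    rw [this]
    calc ϖ ^ (k' - k) * ϖ ^ k = ((u⁻¹ : A₀ˣ) : A₀) * (u : A₀) * (ϖ ^ (k' - k) * ϖ ^ k) := by
          rw [Units.inv_mul, one_mul]
      _ = ((u⁻¹ : A₀ˣ) : A₀) * ϖ ^ (k' - k) * ((u : A₀) * ϖ ^ k) := by ring
  rw [h3]
  exact Subalgebra.mul_mem _ (Subalgebra.algebraMap_mem _ _) h1

/-- `S = C[1/ϖ]`: an element integral over `K₀[x]` becomes integral over `A₀[x]` after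
multiplication by a power of `ϖ`. -/
theorem exists_pow_mul_isIntegral (ϖ : A₀) (hϖ : Irreducible ϖ) {x y : F₀}
    (h : IsIntegral (Algebra.adjoin K ({x} : Set F₀)) y) :
    ∃ k : ℕ, IsIntegral (Algebra.adjoin A₀ ({x} : Set F₀)) (algebraMap A₀ F₀ (ϖ ^ k) * y) := by
  classical
  obtain ⟨p, hp, hpy⟩ := h
  -- a common denominator of the coefficients of `p`
  have hden : ∀ i : ℕ, ∃ k : ℕ, ∀ k' : ℕ, k ≤ k' →
      algebraMap A₀ F₀ (ϖ ^ k') * ((p.coeff i : Algebra.adjoin K ({x} : Set F₀)) : F₀)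
        ∈ Algebra.adjoin A₀ ({x} : Set F₀) :=
    fun i => exists_pow_mul_mem_adjoin ϖ hϖ x _ (p.coeff i).2
  choose kk hkk using hden
  set k : ℕ := (Finset.range (p.natDegree + 1)).sup kk with hk
  have hkle : ∀ i, i ≤ p.natDegree → kk i ≤ k := fun i hi =>
    Finset.le_sup (f := kk) (Finset.mem_range.mpr (Nat.lt_succ_of_le hi))
  -- the element `ϖ^k` of `K₀[x]`
  set c : Algebra.adjoin K ({x} : Set F₀) :=
    ⟨algebraMap A₀ F₀ (ϖ ^ k), by
      rw [IsScalarTower.algebraMap_apply A₀ K F₀]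
      exact Subalgebra.algebraMap_mem _ _⟩ with hc
  have hpy' : aeval y p = 0 := hpy
  have hroot : aeval (algebraMap (Algebra.adjoin K ({x} : Set F₀)) F₀ c * y) (p.scaleRoots c) = 0 :=
    Polynomial.scaleRoots_aeval_eq_zero hpy'
  have hmonic : (p.scaleRoots c).Monic := (Polynomial.monic_scaleRoots_iff c).mpr hp
  have hlifts : p.scaleRoots c ∈ Polynomial.lifts (adjoinIncl (A₀ := A₀) K x) := by
    rw [Polynomial.lifts_iff_coeff_lifts]
    intro i
    rw [Polynomial.coeff_scaleRoots]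
    rcases lt_trichotomy i p.natDegree with hi | hi | hi
    · -- `i < n`
      have h1 := hkk i (k * (p.natDegree - i)) (le_trans (hkle i hi.le)
        (Nat.le_mul_of_pos_right k (by omega)))
      refine ⟨⟨_, h1⟩, Subtype.ext ?_⟩
      show algebraMap A₀ F₀ (ϖ ^ (k * (p.natDegree - i))) * ((p.coeff i : _) : F₀)
        = ((p.coeff i * c ^ (p.natDegree - i) : Algebra.adjoin K ({x} : Set F₀)) : F₀)
      rw [pow_mul, map_pow]
      simp only [hc, MulMemClass.coe_mul, SubmonoidClass.coe_pow]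
      rw [mul_comm]
    · subst hi
      refine ⟨1, ?_⟩
      rw [map_one, Nat.sub_self, pow_zero, mul_one]
      exact hp.coeff_natDegree.symm
    · refine ⟨0, ?_⟩
      rw [map_zero, Polynomial.coeff_eq_zero_of_natDegree_lt hi, zero_mul]
  obtain ⟨Q, hQmap, -, hQmonic⟩ := Polynomial.lifts_and_natDegree_eq_and_monic hlifts hmonic
  refine ⟨k, Q, hQmonic, ?_⟩
  have h2 : Polynomial.eval₂ (algebraMap (Algebra.adjoin A₀ ({x} : Set F₀)) F₀)
      (algebraMap A₀ F₀ (ϖ ^ k) * y) Q
      = Polynomial.eval₂ (algebraMap (Algebra.adjoin K ({x} : Set F₀)) F₀)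
          (algebraMap A₀ F₀ (ϖ ^ k) * y) (Q.map (adjoinIncl K x)) := by
    rw [Polynomial.eval₂_map]
    rfl
  rw [h2, hQmap]
  exact hroot

end Denominators

end Fermat.Agent.S18.H52
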