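/-
S18 / wave 4 (helper52): core-2 leaf K2-CH-C `chart_ram` (helper19's `Core2.lean`, tasks 225).

Horizontal primes `𝔮 ≠ ⊥` (`ϖ ∉ 𝔮`) of the chart `C` = integral closure of `A₀[x]` in `F₀` whose
centre is not one of the branch points are unramified over `A₀[x]`: `𝔮 C_𝔮` is generated by a
polynomial in `x`.

Proof.  `C[1/ϖ]` is the integral closure `T` of `K₀[x]` (`K₀ = Frac A₀`), a Dedekind domain with
fraction field `F₀`; `𝔮` extends to a height one prime `P` of `T`, whose valuation ring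
`V = T_P = C_𝔮` is a discrete valuation ring of `F₀/K₀`; `DSetup.branch` applies to `V`.
-/
import Fermat.Agent.S18.H52.ChartRamAux

set_option autoImplicit false

open Polynomial IsDedekindDomain IntermediateField AlgebraicCurve
open scoped IntermediateField.algebraAdjoinAdjoin

noncomputable section

namespace Fermat.Agent.S18.H52

open Fermat.Agent.S18.H19

/-! ### The extension of a horizontal prime to `C[1/ϖ]` -/

section ExtIdeal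

variable {A₀ : Type*} [CommRing A₀] [IsDomain A₀] [IsDiscreteValuationRing A₀]
  (K : Type*) [Field K] [Algebra A₀ K] [IsFractionRing A₀ K]
  {F₀ : Type*} [Field F₀] [Algebra A₀ F₀] [Algebra K F₀] [IsScalarTower A₀ K F₀]
  (ϖ : A₀) (hϖ : Irreducible ϖ) (x : F₀) (𝔮 : Ideal ↥(chart A₀ x))

/-- The extension `𝔮 C[1/ϖ]` of an ideal of the chart to the integral closure of `K₀[x]`. -/
def extIdeal : Ideal (integralClosure (Algebra.adjoin K ({x} : Set F₀)) F₀) where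
  carrier := {s | ∃ k : ℕ, ∃ t ∈ 𝔮, (t : F₀) = algebraMap A₀ F₀ (ϖ ^ k) * (s : F₀)}
  add_mem' := by
    rintro a b ⟨ka, ta, hta, ha⟩ ⟨kb, tb, htb, hb⟩
    refine ⟨ka + kb, algebraMap A₀ _ (ϖ ^ kb) * ta + algebraMap A₀ _ (ϖ ^ ka) * tb,
      𝔮.add_mem (𝔮.mul_mem_left _ hta) (𝔮.mul_mem_left _ htb), ?_⟩
    simp only [AddMemClass.coe_add, MulMemClass.coe_mul, Subalgebra.coe_algebraMap, ha, hb,
      pow_add, map_mul]
    ring
  zero_mem' := ⟨0, 0, 𝔮.zero_mem, by simp⟩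
  smul_mem' := by
    rintro c a ⟨ka, ta, hta, ha⟩
    obtain ⟨kc, hkc⟩ := exists_pow_mul_isIntegral ϖ hϖ c.2
    refine ⟨kc + ka, (⟨_, hkc⟩ : ↥(chart A₀ x)) * ta, 𝔮.mul_mem_left _ hta, ?_⟩
    simp only [MulMemClass.coe_mul, ha, pow_add, map_mul, smul_eq_mul]
    ring

theorem mem_extIdeal_iff (s : integralClosure (Algebra.adjoin K ({x} : Set F₀)) F₀) :
    s ∈ extIdeal K ϖ hϖ x 𝔮 ↔
      ∃ k : ℕ, ∃ t ∈ 𝔮, (t : F₀) = algebraMap A₀ F₀ (ϖ ^ k) * (s : F₀) := Iff.rfl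

variable {K ϖ hϖ x 𝔮}

omit [IsDomain A₀] [IsDiscreteValuationRing A₀] in
theorem mem_of_pow_mul_mem (h𝔮 : 𝔮.IsPrime) (hϖ𝔮 : algebraMap A₀ ↥(chart A₀ x) ϖ ∉ 𝔮) (k : ℕ)
    (c : ↥(chart A₀ x)) (h : algebraMap A₀ ↥(chart A₀ x) (ϖ ^ k) * c ∈ 𝔮) : c ∈ 𝔮 :=
  (h𝔮.mem_or_mem h).resolve_left fun h' => hϖ𝔮 (h𝔮.mem_of_pow_mem k (by rwa [map_pow] at h'))

theorem mem_extIdeal_iff_of_mem_chart (h𝔮 : 𝔮.IsPrime)
    (hϖ𝔮 : algebraMap A₀ ↥(chart A₀ x) ϖ ∉ 𝔮)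
    (s : integralClosure (Algebra.adjoin K ({x} : Set F₀)) F₀) (hs : (s : F₀) ∈ chart A₀ x) :
    s ∈ extIdeal K ϖ hϖ x 𝔮 ↔ (⟨(s : F₀), hs⟩ : ↥(chart A₀ x)) ∈ 𝔮 := by
  constructor
  · rintro ⟨k, t, ht, hts⟩
    refine mem_of_pow_mul_mem h𝔮 hϖ𝔮 k _ ?_
    have : algebraMap A₀ ↥(chart A₀ x) (ϖ ^ k) * ⟨(s : F₀), hs⟩ = t :=
      Subtype.ext (by simp only [MulMemClass.coe_mul, Subalgebra.coe_algebraMap, hts])
    rw [this]
    exact ht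
  · intro h
    exact ⟨0, _, h, by simp⟩

theorem extIdeal_isPrime (h𝔮 : 𝔮.IsPrime) (hϖ𝔮 : algebraMap A₀ ↥(chart A₀ x) ϖ ∉ 𝔮) :
    (extIdeal K ϖ hϖ x 𝔮).IsPrime := by
  refine ⟨?_, ?_⟩
  · rw [Ideal.ne_top_iff_one]
    rintro ⟨k, t, ht, hts⟩
    have : algebraMap A₀ ↥(chart A₀ x) (ϖ ^ k) = t :=
      Subtype.ext (by simp only [Subalgebra.coe_algebraMap, hts, OneMemClass.coe_one, mul_one])
    rw [← this, map_pow] at ht
    exact hϖ𝔮 (h𝔮.mem_of_pow_mem k ht)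
  · intro a b hab
    obtain ⟨k, t, ht, hts⟩ := hab
    obtain ⟨ka, hka⟩ := exists_pow_mul_isIntegral ϖ hϖ a.2
    obtain ⟨kb, hkb⟩ := exists_pow_mul_isIntegral ϖ hϖ b.2
    have h1 : algebraMap A₀ ↥(chart A₀ x) (ϖ ^ k) *
        ((⟨_, hka⟩ : ↥(chart A₀ x)) * (⟨_, hkb⟩ : ↥(chart A₀ x))) ∈ 𝔮 := by
      have : algebraMap A₀ ↥(chart A₀ x) (ϖ ^ k) *
          ((⟨_, hka⟩ : ↥(chart A₀ x)) * (⟨_, hkb⟩ : ↥(chart A₀ x)))
          = algebraMap A₀ ↥(chart A₀ x) (ϖ ^ (ka + kb)) * t := Subtype.ext (by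
        simp only [MulMemClass.coe_mul, Subalgebra.coe_algebraMap, hts, pow_add, map_mul]
        ring)
      rw [this]
      exact 𝔮.mul_mem_left _ ht
    rcases h𝔮.mem_or_mem (mem_of_pow_mul_mem h𝔮 hϖ𝔮 k _ h1) with h | h
    · exact Or.inl ⟨ka, _, h, rfl⟩
    · exact Or.inr ⟨kb, _, h, rfl⟩

theorem extIdeal_ne_bot (h𝔮0 : 𝔮 ≠ ⊥) : extIdeal K ϖ hϖ x 𝔮 ≠ ⊥ := by
  obtain ⟨t, ht, ht0⟩ := Submodule.exists_mem_ne_zero_of_ne_bot h𝔮0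
  intro h
  have hT : (t : F₀) ∈ integralClosure (Algebra.adjoin K ({x} : Set F₀)) F₀ :=
    isIntegral_adjoin_of_isIntegral K t.2
  have hmem : (⟨(t : F₀), hT⟩ : integralClosure (Algebra.adjoin K ({x} : Set F₀)) F₀)
      ∈ extIdeal K ϖ hϖ x 𝔮 := ⟨0, t, ht, by simp⟩
  rw [h, Ideal.mem_bot] at hmem
  have h2 : (t : F₀) = 0 := congrArg Subtype.val hmem
  exact ht0 (Subtype.ext h2)

omit [IsDomain A₀] [IsDiscreteValuationRing A₀] [IsFractionRing A₀ K] in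
/-- `F₀` is finite over `K₀(x)` (in `IntermediateField` language). -/
theorem finiteDimensional_adjoin_of_finite (K : Type*) [Field K] [Algebra A₀ K]
    [Algebra K F₀] [IsScalarTower A₀ K F₀] (x : F₀) [Module.Finite (ratSub A₀ x) F₀] :
    FiniteDimensional K⟮x⟯ F₀ := by
  have hle : ∀ y ∈ ratSub A₀ x, y ∈ K⟮x⟯ := by
    intro y hy
    have h : ratSub A₀ x ≤ K⟮x⟯.toSubfield := by
      unfold ratSub
      rw [Subfield.closure_le]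
      rintro z (⟨a, rfl⟩ | hz)
      · show algebraMap A₀ F₀ a ∈ K⟮x⟯
        rw [IsScalarTower.algebraMap_apply A₀ K F₀]
        exact K⟮x⟯.algebraMap_mem _
      · rw [Set.mem_singleton_iff] at hz
        subst hz
        exact mem_adjoin_simple_self K _
    exact h hy
  let _ : SMul (ratSub A₀ x) K⟮x⟯ := ⟨fun r s => ⟨(r : F₀) * (s : F₀), mul_mem (hle r r.2) s.2⟩⟩
  have : IsScalarTower (ratSub A₀ x) K⟮x⟯ F₀ := ⟨fun r s t => by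
    show ((r : F₀) * (s : F₀)) * t = (r : F₀) * ((s : F₀) * t)
    exact mul_assoc _ _ _⟩
  exact Module.Finite.of_restrictScalars_finite (ratSub A₀ x) K⟮x⟯ F₀

/-- `chart_ram` with an arbitrary model `K` of the fraction field of `A₀`. -/
theorem chart_ram_aux [CharZero A₀] (K : Type*) [Field K] [Algebra A₀ K] [IsFractionRing A₀ K]
    [Algebra K F₀] [IsScalarTower A₀ K F₀] (ϖ : A₀) (hϖ : Irreducible ϖ)
    (O₀ : ValuationSubring F₀) (x : F₀) (hS : DSetup A₀ O₀ x) :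
    ∃ S : Finset A₀, (∀ a ∈ S, ∀ b ∈ S, a ≠ b → IsUnit (a - b)) ∧
      ∀ 𝔮 : Ideal ↥(chart A₀ x), 𝔮.IsPrime → 𝔮 ≠ ⊥ →
        algebraMap A₀ ↥(chart A₀ x) ϖ ∉ 𝔮 →
        (∀ a ∈ S, (⟨x, self_mem_chart A₀ x⟩ - algebraMap A₀ ↥(chart A₀ x) a) ∉ 𝔮) →
        ∃ g : A₀[X], Polynomial.aeval (⟨x, self_mem_chart A₀ x⟩ : ↥(chart A₀ x)) g ∈ 𝔮 ∧
          ∀ t ∈ 𝔮, ∃ s ∉ 𝔮, ∃ c : ↥(chart A₀ x),
            s * t = Polynomial.aeval (⟨x, self_mem_chart A₀ x⟩ : ↥(chart A₀ x)) g * c := by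
  classical
  have : CharZero K := charZero_of_injective_algebraMap (IsFractionRing.injective A₀ K)
  have hx : Transcendental K x := fun h =>
    hS.transc ((IsFractionRing.isAlgebraic_iff A₀ K F₀).mpr h)
  have : Module.Finite (ratSub A₀ x) F₀ := hS.finite
  have : FiniteDimensional K⟮x⟯ F₀ := finiteDimensional_adjoin_of_finite (A₀ := A₀) K x
  obtain ⟨S, hSunit, hbranch⟩ := hS.branch
  refine ⟨S, hSunit, ?_⟩
  intro 𝔮 h𝔮 h𝔮0 hϖ𝔮 hS𝔮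
  have hPprime : (extIdeal K ϖ hϖ x 𝔮).IsPrime := extIdeal_isPrime h𝔮 hϖ𝔮
  have hP0 : extIdeal K ϖ hϖ x 𝔮 ≠ ⊥ := extIdeal_ne_bot h𝔮0
  obtain ⟨V, hVdvr, hV1, hV2, hV3, hV4⟩ := exists_dvr_of_prime x hx _ hPprime hP0
  -- the chart lies in `T ⊆ V`
  have hCT : ∀ y ∈ chart A₀ x, y ∈ integralClosure (Algebra.adjoin K ({x} : Set F₀)) F₀ :=
    fun y hy => isIntegral_adjoin_of_isIntegral K hy
  have hCV : ∀ y ∈ chart A₀ x, y ∈ V := fun y hy => hV1 ⟨y, hCT y hy⟩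
  -- elements of the chart outside `𝔮` are units of `V`, nonzero elements of `𝔮` are not
  have hCV2 : ∀ c : ↥(chart A₀ x), c ∉ 𝔮 → (c : F₀)⁻¹ ∈ V := fun c hc =>
    hV2 ⟨c, hCT c c.2⟩ (fun h => hc ((mem_extIdeal_iff_of_mem_chart h𝔮 hϖ𝔮 ⟨c, hCT c c.2⟩ c.2).mp h))
  have hCV3 : ∀ c : ↥(chart A₀ x), c ∈ 𝔮 → c ≠ 0 → (c : F₀)⁻¹ ∉ V := fun c hc hc0 =>
    hV3 ⟨c, hCT c c.2⟩ ((mem_extIdeal_iff_of_mem_chart h𝔮 hϖ𝔮 ⟨c, hCT c c.2⟩ c.2).mpr hc)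
      (fun h => hc0 (Subtype.ext (show (c : F₀) = 0 from congrArg Subtype.val h)))
  -- the hypotheses of `DSetup.branch`
  have hb1 : ∀ a : A₀, a ≠ 0 → (algebraMap A₀ F₀ a)⁻¹ ∈ V := by
    intro a _
    have h1 : algebraMap K F₀ ((algebraMap A₀ K a)⁻¹) ∈ Algebra.adjoin K ({x} : Set F₀) :=
      Subalgebra.algebraMap_mem _ _
    have h2 : (algebraMap A₀ F₀ a)⁻¹ ∈ integralClosure (Algebra.adjoin K ({x} : Set F₀)) F₀ := by
      rw [IsScalarTower.algebraMap_apply A₀ K F₀, ← map_inv₀]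
      exact isIntegral_algebraMap (x := (⟨_, h1⟩ : Algebra.adjoin K ({x} : Set F₀)))
    exact hV1 ⟨_, h2⟩
  have hb2 : ∀ a ∈ S, (x - algebraMap A₀ F₀ a)⁻¹ ∈ V := by
    intro a ha
    have := hCV2 (⟨x, self_mem_chart A₀ x⟩ - algebraMap A₀ ↥(chart A₀ x) a) (hS𝔮 a ha)
    simpa only [AddSubgroupClass.coe_sub, Subalgebra.coe_algebraMap] using this
  obtain ⟨g, hg1, hg2, hg3⟩ := hbranch V hb1 hVdvr (hCV x (self_mem_chart A₀ x)) hb2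
  have hgC : ((Polynomial.aeval (⟨x, self_mem_chart A₀ x⟩ : ↥(chart A₀ x)) g : ↥(chart A₀ x)) : F₀)
      = aeval x g := (Subalgebra.aeval_coe _ _ _).symm
  have hg𝔮 : Polynomial.aeval (⟨x, self_mem_chart A₀ x⟩ : ↥(chart A₀ x)) g ∈ 𝔮 := by
    by_contra h
    exact hg2 (hgC ▸ hCV2 _ h)
  have hg0 : aeval x g ≠ 0 := by
    intro h
    apply hg2
    rw [h, inv_zero]
    exact zero_mem V
  refine ⟨g, hg𝔮, ?_⟩
  intro t ht
  by_cases ht0 : t = 0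
  · exact ⟨1, fun h => h𝔮.ne_top ((Ideal.eq_top_iff_one _).mpr h), 0,
      by rw [ht0, mul_zero, mul_zero]⟩
  have h1 : (t : F₀) / aeval x g ∈ V := hg3 _ (hCV t t.2) (hCV3 t ht ht0)
  obtain ⟨n, d, hd, hnd⟩ := hV4 _ h1
  obtain ⟨kn, hkn⟩ := exists_pow_mul_isIntegral ϖ hϖ n.2
  obtain ⟨kd, hkd⟩ := exists_pow_mul_isIntegral ϖ hϖ d.2
  refine ⟨algebraMap A₀ ↥(chart A₀ x) (ϖ ^ kn) * (⟨_, hkd⟩ : ↥(chart A₀ x)), ?_,
    algebraMap A₀ ↥(chart A₀ x) (ϖ ^ kd) * (⟨_, hkn⟩ : ↥(chart A₀ x)), ?_⟩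
  · intro h
    exact hd ⟨kn + kd, _, h, by
      simp only [MulMemClass.coe_mul, Subalgebra.coe_algebraMap, pow_add, map_mul]
      ring⟩
  · apply Subtype.ext
    simp only [MulMemClass.coe_mul, Subalgebra.coe_algebraMap, hgC]
    rw [← hnd]
    field_simp

end ExtIdeal

/-! ### The leaf -/

section Chart

variable {A₀ : Type*} [CommRing A₀] [IsDomain A₀] [IsDiscreteValuationRing A₀] [CharZero A₀]
  (ϖ : A₀) (hϖ : Irreducible ϖ)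
  {F₀ : Type*} [Field F₀] [Algebra A₀ F₀] [FaithfulSMul A₀ F₀]
  (O₀ : ValuationSubring F₀) (x : F₀)

include hϖ

/-- CH-C (horizontal primes off the branch points are unramified over `A₀[x]`): VERBATIM the
leaf `chart_ram` of helper19's `Core2.lean`. -/
theorem chart_ram (hS : DSetup A₀ O₀ x) :
    ∃ S : Finset A₀, (∀ a ∈ S, ∀ b ∈ S, a ≠ b → IsUnit (a - b)) ∧
      ∀ 𝔮 : Ideal ↥(chart A₀ x), 𝔮.IsPrime → 𝔮 ≠ ⊥ →
        algebraMap A₀ ↥(chart A₀ x) ϖ ∉ 𝔮 →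
        (∀ a ∈ S, (⟨x, self_mem_chart A₀ x⟩ - algebraMap A₀ ↥(chart A₀ x) a) ∉ 𝔮) →
        ∃ g : A₀[X], Polynomial.aeval (⟨x, self_mem_chart A₀ x⟩ : ↥(chart A₀ x)) g ∈ 𝔮 ∧
          ∀ t ∈ 𝔮, ∃ s ∉ 𝔮, ∃ c : ↥(chart A₀ x),
            s * t = Polynomial.aeval (⟨x, self_mem_chart A₀ x⟩ : ↥(chart A₀ x)) g * c := by
  have hinj : Function.Injective (algebraMap A₀ F₀) := FaithfulSMul.algebraMap_injective A₀ F₀
  letI : Algebra (FractionRing A₀) F₀ := (IsFractionRing.lift hinj).toAlgebra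
  haveI : IsScalarTower A₀ (FractionRing A₀) F₀ :=
    IsScalarTower.of_algebraMap_eq (fun a => (IsFractionRing.lift_algebraMap hinj a).symm)
  exact chart_ram_aux (FractionRing A₀) ϖ hϖ O₀ x hS

end Chart

end Fermat.Agent.S18.H52
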