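/-
S18 / wave 4 (helper52): small leaves B2t of the bridge sub-skeleton (helper28, `H28/SetupSkel.lean`):
the `A`-integral series `j(q^d)`, its base change to `ℚ̄`, its reduction, and transcendence of
`j(q^d)` over any field of constants.
-/
import Mathlib
import Fermat.Prelude.Def_ModularCurve_X0ModL
import Fermat.Prelude.Def_ModularCurve_LaurentCoeff
import Fermat.Agent.S28.H55.Crux

set_option autoImplicit false

open ModularCurve

noncomputable section

namespace Fermat.Agent.S18.H52

/-- `H28.incA_jA`: the `A`-integral series `j(q^d)` is `j(q^d)` over `ℚ̄`. -/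
theorem incA_jA (A : ValuationSubring (AlgebraicClosure ℚ)) (d : ℕ) [NeZero d] :
    coeffMap A.subtype (jqNModC A d) = coeffEmb (AlgebraicClosure ℚ) (qExpand ℚ d jq) := by
  rw [coeffMap_jqNModC]
  show jqNModC (AlgebraicClosure ℚ) d
    = coeffMap (algebraMap ℚ (AlgebraicClosure ℚ)) (jqNModC ℚ d)
  rw [coeffMap_jqNModC]

/-- `H28.redA_jA`: the reduction of the `A`-integral series `j(q^d)`. -/
theorem redA_jA (A : ValuationSubring (AlgebraicClosure ℚ)) (d : ℕ) [NeZero d] :
    coeffMap (IsLocalRing.residue A) (jqNModC A d) = jqNModC (IsLocalRing.ResidueField A) d :=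
  coeffMap_jqNModC _ d

/-- `H28.transcendental_jqNModC`: `j(q^d)` is transcendental over any field of constants. -/
theorem transcendental_jqNModC (k : Type*) [Field k] (d : ℕ) [NeZero d] :
    Transcendental k (jqNModC k d) := by
  have h : jqNModC k d = Fermat.Agent.S28.H55.lead ((d : ℤ) * (-1))
      (PowerSeries.expand d (NeZero.ne d) (jNum.map (Int.castRingHom k))) := by
    rw [← Fermat.Agent.S28.H55.qExpand_lead]
    rfl
  rw [h]
  refine Fermat.Agent.S28.H55.transcendental_lead ?_ _ ?_
  · have : (0 : ℤ) < d := by exact_mod_cast Nat.pos_of_ne_zero (NeZero.ne d)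
    linarith
  · rw [PowerSeries.constantCoeff_expand, ← PowerSeries.coeff_zero_eq_constantCoeff,
      PowerSeries.coeff_map, PowerSeries.coeff_zero_eq_constantCoeff, constantCoeff_jNum]
    simp

end Fermat.Agent.S18.H52
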