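/-
S18 / wave 4 (helper52): leaf C1/D1(d) "SWAP" of the route of report #1073 / design notes #1179,
in `Place` language, together with the local arithmetic of `K(x)` at a center `x = c`.

For a field `F / K`, `x : F`, `c : K`, write "`P` over `c`" for `0 < P.ord (x - c)`.

* `ord_aeval_of_over`  : `ord_P (p(x)) = rootMultiplicity c p * ord_P (x - c)` (FIB4).
* `exists_normal_form` : every `r ∈ K(x)` is `p(x) / ((x - c)^n q(x))` with `q(c) ≠ 0` and
  (`n = 0` or `p(c) ≠ 0`).
* `regular_of_regular` : regularity at `c` of an element of `K(x)` does not depend on the place.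
* `exists_value`       : a regular `r ∈ K(x)` has a value `a : K` at `c`: `r - a = (x - c) * t`.
* `swap`               : if the `K(x)`-coordinates of a function regular over `c`, with respect to a
  tuple `θ` regular over `c`, are not all regular at `c`, then `(∑ a_i θ_i) / (x - c)` is regular
  over `c` for some constants `a ≠ 0`.

No transcendence, finiteness or algebraic closedness hypothesis is needed.
-/
import Mathlib
import Fermat.Prelude.Def_AlgebraicCurve_DivisorClassGroup
import Fermat.Agent.S24.H52.AddValMore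

set_option autoImplicit false

open AlgebraicCurve IntermediateField Polynomial

noncomputable section

namespace Fermat.Agent.S18.H52

open Fermat.Agent.S24.H52

variable {K F : Type*} [Field K] [Field F] [Algebra K F]

/-- Membership in the valuation ring of a place is nonnegativity of the order (also at `0`). -/
theorem mem_iff_ord_nonneg' (P : Place K F) (f : F) :
    f ∈ P.toValuationSubring ↔ 0 ≤ P.ord f := by
  by_cases hf : f = 0
  · subst hf
    simp [P.toValuationSubring.zero_mem]
  · exact mem_iff_ord_nonneg P hf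

/-- Nonzero constants have order `0`. -/
theorem ord_algebraMap_eq_zero (P : Place K F) (a : K) (ha : algebraMap K F a ≠ 0) :
    P.ord (algebraMap K F a) = 0 := by
  have ha' : a ≠ 0 := by rintro rfl; simp at ha
  have h1 := ord_nonneg_of_mem P (P.algebraMap_mem' a)
  have h2 := ord_nonneg_of_mem P (P.algebraMap_mem' a⁻¹)
  rw [map_inv₀, P.ord_inv] at h2
  omega

section Over

variable (x : F) (c : K) (P : Place K F)

theorem ne_zero_of_over (hP : 0 < P.ord (x - algebraMap K F c)) : x - algebraMap K F c ≠ 0 := by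
  intro h
  rw [h, Place.ord_zero] at hP
  exact lt_irrefl _ hP

/-- **FIB4.** For a place over `x = c`: `ord_P (p(x)) = rootMultiplicity c p * ord_P (x - c)`. -/
theorem ord_aeval_of_over (hP : 0 < P.ord (x - algebraMap K F c)) {p : K[X]} (hp : p ≠ 0) :
    aeval x p ≠ 0 ∧
      P.ord (aeval x p) = (p.rootMultiplicity c : ℤ) * P.ord (x - algebraMap K F c) := by
  have hπ0 := ne_zero_of_over x c P hP
  have hq : p.comp (X + C c) ≠ 0 := by
    intro h
    rw [Polynomial.comp_eq_zero_iff] at h
    rcases h with h | ⟨-, h⟩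
    · exact hp h
    · have := congrArg (fun q => q.coeff 1) h
      simp at this
  have h2 : aeval x p = aeval (x - algebraMap K F c) (p.comp (X + C c)) := by
    rw [Polynomial.aeval_comp]
    simp
  have h6 : (p.comp (X + C c)).rootMultiplicity 0 = p.rootMultiplicity c := by
    rw [Polynomial.rootMultiplicity_eq_natTrailingDegree',
      ← Polynomial.rootMultiplicity_eq_natTrailingDegree]
  have h := (isAddVal_ord P).map_aeval (K := K) (fun a ha => ord_algebraMap_eq_zero P a ha)
    hP hπ0 hq
  rw [← h2, h6] at h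
  exact h

theorem mem_of_over (hP : 0 < P.ord (x - algebraMap K F c)) :
    x - algebraMap K F c ∈ P.toValuationSubring :=
  (mem_iff_ord_nonneg' P _).mpr hP.le

theorem aeval_mem_of_over (hP : 0 < P.ord (x - algebraMap K F c)) (p : K[X]) :
    aeval x p ∈ P.toValuationSubring := by
  have hx : x ∈ P.toValuationSubring := by
    have h := add_mem (mem_of_over x c P hP) (P.algebraMap_mem' c)
    simpa using h
  rw [Polynomial.aeval_eq_sum_range]
  refine sum_mem fun i _ => ?_
  rw [Algebra.smul_def]
  exact mul_mem (P.algebraMap_mem' _) (pow_mem hx _)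

theorem aeval_ne_zero_of_over (hP : 0 < P.ord (x - algebraMap K F c)) {q : K[X]}
    (hq : q.eval c ≠ 0) : aeval x q ≠ 0 :=
  (ord_aeval_of_over x c P hP (p := q) (by rintro rfl; simp at hq)).1

theorem aeval_inv_mem_of_over (hP : 0 < P.ord (x - algebraMap K F c)) {q : K[X]}
    (hq : q.eval c ≠ 0) : (aeval x q)⁻¹ ∈ P.toValuationSubring := by
  have hq0 : q ≠ 0 := by rintro rfl; simp at hq
  have h := ord_aeval_of_over x c P hP hq0
  have hr : q.rootMultiplicity c = 0 := Polynomial.rootMultiplicity_eq_zero hq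
  rw [mem_iff_ord_nonneg', P.ord_inv, h.2, hr]
  simp

end Over

section NormalForm

variable (x : F) (c : K)

/-- **Pole-order normal form** at `c` of an element of `K(x)`. -/
theorem exists_normal_form (hex : ∃ P : Place K F, 0 < P.ord (x - algebraMap K F c))
    (r : K⟮x⟯) :
    ∃ (n : ℕ) (p q : K[X]), q.eval c ≠ 0 ∧ (n = 0 ∨ p.eval c ≠ 0) ∧
      (r : F) * ((x - algebraMap K F c) ^ n * aeval x q) = aeval x p := by
  obtain ⟨P, hP⟩ := hex
  have hπ0 := ne_zero_of_over x c P hP
  obtain ⟨p₁, q₁, h⟩ := (IntermediateField.mem_adjoin_simple_iff K (r : F)).mp r.2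
  by_cases hz : p₁ = 0 ∨ q₁ = 0
  · refine ⟨0, 0, 1, by simp, Or.inl rfl, ?_⟩
    have hr0 : (r : F) = 0 := by
      rcases hz with rfl | rfl <;> simp [h]
    simp [hr0]
  · push_neg at hz
    obtain ⟨hp₁, hq₁⟩ := hz
    obtain ⟨p₀, hp₀, hpd⟩ := Polynomial.exists_eq_pow_rootMultiplicity_mul_and_not_dvd p₁ hp₁ c
    obtain ⟨q₀, hq₀, hqd⟩ := Polynomial.exists_eq_pow_rootMultiplicity_mul_and_not_dvd q₁ hq₁ c
    have hpc : p₀.eval c ≠ 0 := fun h0 => hpd (Polynomial.dvd_iff_isRoot.mpr h0)
    have hqc : q₀.eval c ≠ 0 := fun h0 => hqd (Polynomial.dvd_iff_isRoot.mpr h0)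
    set a := p₁.rootMultiplicity c with ha
    set b := q₁.rootMultiplicity c with hb
    have hq₁x : aeval x q₁ ≠ 0 := (ord_aeval_of_over x c P hP hq₁).1
    have hX : aeval x (X - C c : K[X]) = x - algebraMap K F c := by simp
    have hp₁x : aeval x p₁ = (x - algebraMap K F c) ^ a * aeval x p₀ := by
      conv_lhs => rw [hp₀]
      rw [map_mul, map_pow, hX]
    have hq₁x' : aeval x q₁ = (x - algebraMap K F c) ^ b * aeval x q₀ := by
      conv_lhs => rw [hq₀]
      rw [map_mul, map_pow, hX]
    have hmain : (r : F) * ((x - algebraMap K F c) ^ b * aeval x q₀)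
        = (x - algebraMap K F c) ^ a * aeval x p₀ := by
      rw [← hq₁x', ← hp₁x, h, div_mul_cancel₀ _ hq₁x]
    rcases le_or_gt b a with hba | hab
    · refine ⟨0, (X - C c) ^ (a - b) * p₀, q₀, hqc, Or.inl rfl, ?_⟩
      rw [map_mul, map_pow, hX, pow_zero, one_mul]
      have hpow : (x - algebraMap K F c) ^ a
          = (x - algebraMap K F c) ^ b * (x - algebraMap K F c) ^ (a - b) := by
        rw [← pow_add]; congr 1; omega
      rw [hpow] at hmain
      have hb0 : (x - algebraMap K F c) ^ b ≠ 0 := pow_ne_zero _ hπ0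
      apply mul_left_cancel₀ hb0
      linear_combination hmain
    · refine ⟨b - a, p₀, q₀, hqc, Or.inr hpc, ?_⟩
      have hpow : (x - algebraMap K F c) ^ b
          = (x - algebraMap K F c) ^ a * (x - algebraMap K F c) ^ (b - a) := by
        rw [← pow_add]; congr 1; omega
      rw [hpow] at hmain
      have ha0 : (x - algebraMap K F c) ^ a ≠ 0 := pow_ne_zero _ hπ0
      apply mul_left_cancel₀ ha0
      linear_combination hmain

/-- An element `p(x)/q(x)` with `q(c) ≠ 0` is regular at every place over `c`. -/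
theorem mem_of_mul_aeval_eq (P : Place K F) (hP : 0 < P.ord (x - algebraMap K F c))
    {f : F} {p q : K[X]} (hq : q.eval c ≠ 0) (h : f * aeval x q = aeval x p) :
    f ∈ P.toValuationSubring := by
  have hq0 := aeval_ne_zero_of_over x c P hP hq
  have hf : f = aeval x p * (aeval x q)⁻¹ := by
    rw [← h, mul_assoc, mul_inv_cancel₀ hq0, mul_one]
  rw [hf]
  exact mul_mem (aeval_mem_of_over x c P hP p)
    (aeval_inv_mem_of_over x c P hP hq)

/-- An element `p(x)/((x-c)^n q(x))` with `n ≠ 0`, `p(c), q(c) ≠ 0` has a pole at every place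
over `c`. -/
theorem ord_neg_of_normal_form (P : Place K F) (hP : 0 < P.ord (x - algebraMap K F c))
    {f : F} {n : ℕ} {p q : K[X]} (hn : n ≠ 0) (hp : p.eval c ≠ 0) (hq : q.eval c ≠ 0)
    (h : f * ((x - algebraMap K F c) ^ n * aeval x q) = aeval x p) : P.ord f < 0 := by
  have hπ0 := ne_zero_of_over x c P hP
  have hp0 : p ≠ 0 := by rintro rfl; simp at hp
  have hq0 : q ≠ 0 := by rintro rfl; simp at hq
  have h1 := ord_aeval_of_over x c P hP hp0
  have h2 := ord_aeval_of_over x c P hP hq0
  rw [Polynomial.rootMultiplicity_eq_zero hp] at h1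
  rw [Polynomial.rootMultiplicity_eq_zero hq] at h2
  have hf0 : f ≠ 0 := by
    rintro rfl
    rw [zero_mul] at h
    exact h1.1 h.symm
  have hπn : (x - algebraMap K F c) ^ n ≠ 0 := pow_ne_zero _ hπ0
  have h3 := congrArg P.ord h
  rw [P.ord_mul hf0 (mul_ne_zero hπn h2.1), P.ord_mul hπn h2.1, h1.2, h2.2] at h3
  have h4 : P.ord ((x - algebraMap K F c) ^ n) = n * P.ord (x - algebraMap K F c) := by
    have := P.ord_zpow (x - algebraMap K F c) (n : ℤ)
    simpa using this
  rw [h4] at h3
  have hn' : (1 : ℤ) ≤ n := by exact_mod_cast Nat.one_le_iff_ne_zero.mpr hn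
  nlinarith

/-- **(R1)** Regularity at `c` of an element of `K(x)` does not depend on the place over `c`. -/
theorem regular_of_regular (r : K⟮x⟯) (P P' : Place K F)
    (hP : 0 < P.ord (x - algebraMap K F c)) (hP' : 0 < P'.ord (x - algebraMap K F c))
    (h : 0 ≤ P.ord (r : F)) : 0 ≤ P'.ord (r : F) := by
  obtain ⟨n, p, q, hq, hnp, hr⟩ := exists_normal_form x c ⟨P, hP⟩ r
  by_cases hn : n = 0
  · subst hn
    rw [pow_zero, one_mul] at hr
    exact (mem_iff_ord_nonneg' P' _).mp (mem_of_mul_aeval_eq x c P' hP' hq hr)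
  · have := ord_neg_of_normal_form x c P hP hn (hnp.resolve_left hn) hq hr
    omega

/-- **(R3)** A regular element of `K(x)` has a value at `c`. -/
theorem exists_value (r : K⟮x⟯) (P : Place K F) (hP : 0 < P.ord (x - algebraMap K F c))
    (h : 0 ≤ P.ord (r : F)) :
    ∃ (a : K) (t : K⟮x⟯), (r : F) - algebraMap K F a = (x - algebraMap K F c) * (t : F) ∧
      ∀ P' : Place K F, 0 < P'.ord (x - algebraMap K F c) → 0 ≤ P'.ord (t : F) := by
  obtain ⟨n, p, q, hq, hnp, hr⟩ := exists_normal_form x c ⟨P, hP⟩ r
  have hn : n = 0 := by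
    by_contra hn
    have := ord_neg_of_normal_form x c P hP hn (hnp.resolve_left hn) hq hr
    omega
  subst hn
  rw [pow_zero, one_mul] at hr
  have hq0 := aeval_ne_zero_of_over x c P hP hq
  set a : K := p.eval c / q.eval c with ha
  have hroot : (p - C a * q).IsRoot c := by
    simp only [Polynomial.IsRoot, Polynomial.eval_sub, Polynomial.eval_mul, Polynomial.eval_C, ha]
    field_simp
    ring
  have hw := (Polynomial.mul_divByMonic_eq_iff_isRoot (p := p - C a * q) (a := c)).mpr hroot
  set w := (p - C a * q) /ₘ (X - C c) with hwdef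
  have hwx : (x - algebraMap K F c) * aeval x w = aeval x p - algebraMap K F a * aeval x q := by
    have := congrArg (aeval x) hw
    simpa using this
  have hmemw : aeval x w ∈ K⟮x⟯ :=
    IntermediateField.algebra_adjoin_le_adjoin K {x} (Polynomial.aeval_mem_adjoin_singleton K x)
  have hmemq : aeval x q ∈ K⟮x⟯ :=
    IntermediateField.algebra_adjoin_le_adjoin K {x} (Polynomial.aeval_mem_adjoin_singleton K x)
  refine ⟨a, ⟨aeval x w / aeval x q, div_mem hmemw hmemq⟩, ?_, ?_⟩
  · show (r : F) - algebraMap K F a = (x - algebraMap K F c) * (aeval x w / aeval x q)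
    rw [← mul_div_assoc, hwx, eq_div_iff hq0, sub_mul, hr]
  · intro P' hP'
    show 0 ≤ P'.ord (aeval x w / aeval x q)
    rw [← mem_iff_ord_nonneg', div_eq_mul_inv]
    exact mul_mem (aeval_mem_of_over x c P' hP' w)
      (aeval_inv_mem_of_over x c P' hP' hq)

end NormalForm

/-- **SWAP (leaf C1/D1(d)).**  Let `θ` be a tuple of functions regular over `x = c` and let
`f = ∑ r_i θ_i`, `r_i ∈ K(x)`, be regular over `c`.  Then either all coordinates `r_i` are regular
at `c`, or there are constants `a ≠ 0` such that `g = (∑ a_i θ_i) / (x - c)` is regular over `c`. -/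
theorem swap (x : F) (c : K) {μ : ℕ} (θ : Fin μ → F)
    (hθ : ∀ i, ∀ P : Place K F, 0 < P.ord (x - algebraMap K F c) → 0 ≤ P.ord (θ i))
    (r : Fin μ → K⟮x⟯)
    (hf : ∀ P : Place K F, 0 < P.ord (x - algebraMap K F c) →
      0 ≤ P.ord (∑ i, (r i : F) * θ i)) :
    (∀ i, ∀ P : Place K F, 0 < P.ord (x - algebraMap K F c) → 0 ≤ P.ord (r i : F)) ∨
    ∃ (a : Fin μ → K) (g : F), a ≠ 0 ∧
      g * (x - algebraMap K F c) = ∑ i, a i • θ i ∧
      ∀ P : Place K F, 0 < P.ord (x - algebraMap K F c) → 0 ≤ P.ord g := by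
  classical
  by_cases hex : ∃ P : Place K F, 0 < P.ord (x - algebraMap K F c)
  swap
  · exact Or.inl fun i P hP => absurd ⟨P, hP⟩ hex
  obtain ⟨P₀, hP₀⟩ := hex
  have hπ0 := ne_zero_of_over x c P₀ hP₀
  choose n p q hq hnp hr using fun i => exists_normal_form x c ⟨P₀, hP₀⟩ (r i)
  by_cases hN : ∀ i, n i = 0
  · left
    intro i P hP
    have h := hr i
    rw [hN i, pow_zero, one_mul] at h
    exact (mem_iff_ord_nonneg' P _).mp (mem_of_mul_aeval_eq x c P hP (hq i) h)
  right
  push_neg at hN
  obtain ⟨i₀, hi₀⟩ := hN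
  set N : ℕ := Finset.univ.sup n with hNdef
  have hle : ∀ i, n i ≤ N := fun i => Finset.le_sup (Finset.mem_univ i)
  have hN1 : 1 ≤ N := le_trans (Nat.one_le_iff_ne_zero.mpr hi₀) (hle i₀)
  obtain ⟨i₁, -, hi₁⟩ := Finset.exists_mem_eq_sup Finset.univ ⟨i₀, Finset.mem_univ i₀⟩ n
  have hq0 : ∀ i, aeval x (q i) ≠ 0 := fun i => aeval_ne_zero_of_over x c P₀ hP₀ (hq i)
  -- the values at `c` of `r_i (x - c)^N`
  set a : Fin μ → K := fun i => if n i = N then (p i).eval c / (q i).eval c else 0 with ha
  -- the remainders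
  set t : Fin μ → F := fun i =>
    if n i = N then aeval x ((p i - C (a i) * q i) /ₘ (X - C c)) / aeval x (q i)
    else (x - algebraMap K F c) ^ (N - n i - 1) * aeval x (p i) / aeval x (q i) with ht
  have hT : ∀ i, (r i : F) * (x - algebraMap K F c) ^ N
      = algebraMap K F (a i) + (x - algebraMap K F c) * t i := by
    intro i
    by_cases hi : n i = N
    · have hai : a i = (p i).eval c / (q i).eval c := by simp only [ha, if_pos hi]
      have hti : t i = aeval x ((p i - C (a i) * q i) /ₘ (X - C c)) / aeval x (q i) := by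
        simp only [ht, if_pos hi]
      have hroot : (p i - C (a i) * q i).IsRoot c := by
        simp only [Polynomial.IsRoot, Polynomial.eval_sub, Polynomial.eval_mul,
          Polynomial.eval_C, hai]
        have := hq i
        field_simp
        ring
      have hw := (Polynomial.mul_divByMonic_eq_iff_isRoot (p := p i - C (a i) * q i)
        (a := c)).mpr hroot
      have hwx : (x - algebraMap K F c) * aeval x ((p i - C (a i) * q i) /ₘ (X - C c))
          = aeval x (p i) - algebraMap K F (a i) * aeval x (q i) := by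
        have := congrArg (aeval x) hw
        simpa using this
      have h := hr i
      rw [hi] at h
      rw [hti, ← mul_div_assoc, hwx]
      have hq' := hq0 i
      field_simp
      linear_combination h
    · have hai : a i = 0 := by simp only [ha, if_neg hi]
      have hti : t i = (x - algebraMap K F c) ^ (N - n i - 1) * aeval x (p i) / aeval x (q i) := by
        simp only [ht, if_neg hi]
      have hlt : n i < N := lt_of_le_of_ne (hle i) hi
      have h := hr i
      have hpow : (x - algebraMap K F c) ^ N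
          = (x - algebraMap K F c) ^ (n i) * ((x - algebraMap K F c)
            * (x - algebraMap K F c) ^ (N - n i - 1)) := by
        rw [← pow_succ', ← pow_add]; congr 1; omega
      rw [hai, map_zero, zero_add, hti, ← mul_div_assoc, eq_div_iff (hq0 i), hpow, ← h]
      ring
  have hR : ∀ i, ∀ P : Place K F, 0 < P.ord (x - algebraMap K F c) →
      t i ∈ P.toValuationSubring := by
    intro i P hP
    by_cases hi : n i = N
    · have hti : t i = aeval x ((p i - C (a i) * q i) /ₘ (X - C c)) / aeval x (q i) := by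
        simp only [ht, if_pos hi]
      rw [hti, div_eq_mul_inv]
      exact mul_mem (aeval_mem_of_over x c P hP _)
        (aeval_inv_mem_of_over x c P hP (hq i))
    · have hti : t i = (x - algebraMap K F c) ^ (N - n i - 1) * aeval x (p i) / aeval x (q i) := by
        simp only [ht, if_neg hi]
      rw [hti, div_eq_mul_inv]
      exact mul_mem
        (mul_mem (pow_mem (mem_of_over x c P hP) _)
          (aeval_mem_of_over x c P hP _))
        (aeval_inv_mem_of_over x c P hP (hq i))
  refine ⟨a, (x - algebraMap K F c) ^ (N - 1) * (∑ i, (r i : F) * θ i) - ∑ i, t i * θ i, ?_, ?_, ?_⟩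
  · intro h0
    have h1 : a i₁ = 0 := by rw [h0]; rfl
    have hn1 : n i₁ = N := hi₁.symm
    have hn1' : n i₁ ≠ 0 := by omega
    have hp1 := (hnp i₁).resolve_left hn1'
    simp only [ha, if_pos hn1] at h1
    exact div_ne_zero hp1 (hq i₁) h1
  · have hpow : (x - algebraMap K F c) ^ (N - 1) * (x - algebraMap K F c)
        = (x - algebraMap K F c) ^ N := by
      rw [← pow_succ]; congr 1; omega
    have h1 : ((x - algebraMap K F c) ^ (N - 1) * (∑ i, (r i : F) * θ i) - ∑ i, t i * θ i)
        * (x - algebraMap K F c)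
        = ∑ i, ((r i : F) * (x - algebraMap K F c) ^ N - (x - algebraMap K F c) * t i) * θ i := by
      rw [sub_mul, mul_right_comm, hpow, Finset.mul_sum, Finset.sum_mul, ← Finset.sum_sub_distrib]
      refine Finset.sum_congr rfl fun i _ => ?_
      ring
    rw [h1]
    refine Finset.sum_congr rfl fun i _ => ?_
    rw [hT i, add_sub_cancel_right, Algebra.smul_def]
  · intro P hP
    rw [← mem_iff_ord_nonneg']
    refine sub_mem (mul_mem
      (pow_mem (mem_of_over x c P hP) _)
      ((mem_iff_ord_nonneg' P _).mpr (hf P hP))) ?_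
    refine sum_mem fun i _ => ?_
    exact mul_mem (hR i P hP) ((mem_iff_ord_nonneg' P _).mpr (hθ i P hP))

end Fermat.Agent.S18.H52
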